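import Fermat.Agent.S59.H577.GTWCurve
import Fermat.Agent.S59.H127.LinAlg2

/-!
# S59 / cell GTW (helper577): `Arch.ResidualHyp` for `E[p] ⊗ k`, ramified case

`curveResidualHyp_of_ram : CurveResidualHypRamStatement` : the frozen statement
`Arch.CurveResidualHypStatement` with `p = 3 ∨ p = 5` weakened to `p ≠ 2` and with the extra
hypothesis `∃ q ∈ Smin, q ≠ p` (`E[p]` is ramified at some prime `q ≠ p`).
-/

set_option autoImplicit false
set_option linter.style.haveILetI false

open Polynomial IsLocalRing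
open scoped WeierstrassCurve.Affine TensorProduct

namespace Fermat.Agent.S59.H577

open Fermat.Agent.S59.Arch Fermat.Agent.S59.H127
open WeierstrassCurve WeierstrassCurve.Affine WeierstrassCurve.Affine.Point

/-- **GTW, ramified case.**  The frozen `Arch.CurveResidualHypStatement` for every odd `p`, under
the extra hypothesis that `E[p]` is ramified at some prime `q ≠ p`. -/
def CurveResidualHypRamStatement : Prop :=
  ∀ (p : ℕ) [Fact p.Prime] (_hp2 : p ≠ 2)
    (W : WeierstrassCurve ℤ) (_hΔ : W.Δ ≠ 0) (_hW : W.IsSemistableModel)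
    (_hirr : W.ModRepIsIrreducible p)
    (hcard : Nat.card (Submodule.torsionBy ℤ
      ((W.map (Int.castRingHom ℚ))⁄(AlgebraicClosure ℚ)).Point p) = p ^ 2)
    (hker : GaloisFactorsThroughFiniteLevel
      (WeierstrassCurve.Affine.Point.galoisRepModuleEnd (K := AlgebraicClosure ℚ) ℚ
        (W.map (Int.castRingHom ℚ)) p))
    (𝒪 : Type) [CommRing 𝒪] [IsDomain 𝒪] [IsDiscreteValuationRing 𝒪]
    [IsAdicComplete (maximalIdeal 𝒪) 𝒪] [Finite (ResidueField 𝒪)] [CharZero 𝒪]
    (_hp𝒪 : (p : 𝒪) ∈ maximalIdeal 𝒪)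
    (ι : ZMod p →+* ResidueField 𝒪)
    (_hι : ∀ f : (ZMod p)[X], f.Monic → f.natDegree = 2 →
      ∃ α β : ResidueField 𝒪, f.map ι = (X - C α) * (X - C β))
    (Smin : Finset ℕ) (_hSmin : IsMinSet p (curveResidual p W hcard hker ι) Smin)
    (_hram : ∃ q ∈ Smin, q ≠ p),
    ResidualHyp p 𝒪 (curveResidual p W hcard hker ι) Smin

section Fields

variable (p : ℕ) [hp : Fact p.Prime] (W : WeierstrassCurve ℤ)
  (hcard : Nat.card (Submodule.torsionBy ℤ
      ((W.map (Int.castRingHom ℚ))⁄(AlgebraicClosure ℚ)).Point p) = p ^ 2)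
  (hker : GaloisFactorsThroughFiniteLevel
      (WeierstrassCurve.Affine.Point.galoisRepModuleEnd (K := AlgebraicClosure ℚ) ℚ
        (W.map (Int.castRingHom ℚ)) p))
  {k : Type} [Field k] (ι : ZMod p →+* k)

theorem curveResidual_rho577 (σ : GQ577) :
    (curveResidual p W hcard hker ι).ρ σ =
      letI : Algebra (ZMod p) k := ι.toAlgebra
      (rho577 W p σ).baseChange k := rfl

/-- irreducibility on every normal subgroup containing the square of a non-trivial unipotent -/
theorem curve_stable_eq_bot_or_top (hp2 : p ≠ 2) (hirr : W.ModRepIsIrreducible p)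
    (σ₀ : GQ577) (h1 : (rho577 W p σ₀ - 1) * (rho577 W p σ₀ - 1) = 0)
    (h2 : rho577 W p σ₀ ≠ 1)
    (K : Type) [Field K] [Algebra k K] (G : Subgroup GQ577) [G.Normal] (hG : σ₀ * σ₀ ∈ G)
    (V : Submodule K ((curveResidual p W hcard hker ι).baseChange K).V)
    (hV : ∀ σ ∈ G, ∀ x ∈ V, ((curveResidual p W hcard hker ι).baseChange K).ρ σ x ∈ V) :
    V = ⊥ ∨ V = ⊤ := by
  letI : Algebra (ZMod p) k := ι.toAlgebra
  have hfin : Module.finrank (ZMod p) (Submodule.torsionBy ℤ (Pts W) p) = 2 :=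
    ((W.map (Int.castRingHom ℚ)).residualGaloisRepOf p hcard hker).finrank_eq
  set N : Module.End (ZMod p) (Submodule.torsionBy ℤ (Pts W) p) := rho577 W p σ₀ - 1 with hN
  have hN0 : N ≠ 0 := fun h => h2 (sub_eq_zero.mp h)
  have hu : rho577 W p (σ₀ * σ₀) - 1 = (2 : ZMod p) • N := by
    rw [map_mul]
    have : rho577 W p σ₀ = N + 1 := by rw [hN]; abel
    rw [this, two_smul]
    have h3 : (N + 1) * (N + 1) = N * N + N + N + 1 := by
      rw [add_mul, mul_add, mul_one, one_mul]; abel
    rw [h3, h1]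
    abel
  have h2ne : (2 : ZMod p) ≠ 0 := by
    intro h
    have h4 : ((2 : ℕ) : ZMod p) = 0 := by exact_mod_cast h
    rw [ZMod.natCast_eq_zero_iff] at h4
    exact hp2 ((Nat.prime_dvd_prime_iff_eq hp.out Nat.prime_two).mp h4)
  refine stable_eq_bot_or_top_of_unipotent (k₀ := ZMod p) (k := k) (K := K) hfin (rho577 W p)
    (fun W₀ hW₀ => hirr.2 W₀ (fun σ x hx => hW₀ σ x hx)) G (σ₀ * σ₀) hG ?_ ?_ V
    (fun σ hσ x hx => hV σ hσ x hx)
  · rw [hu, smul_mul_smul_comm, h1, smul_zero]
  · intro h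
    rw [← sub_eq_zero, hu] at h
    exact hN0 ((smul_eq_zero.mp h).resolve_left h2ne)

/-- the determinant of `E[p] ⊗ k` is the mod `p` cyclotomic character -/
theorem curve_detIsCyclotomic (hΔ : W.Δ ≠ 0) (hirr : W.ModRepIsIrreducible p) :
    (GaloisRepAdic.ofResidualGaloisRep (curveResidual p W hcard hker ι)).DetIsCyclotomic p := by
  letI : Algebra (ZMod p) k := ι.toAlgebra
  haveI : Module.Finite (ZMod p) (Submodule.torsionBy ℤ (Pts W) p) :=
    Module.finite_of_finrank_eq_succ
      ((W.map (Int.castRingHom ℚ)).residualGaloisRepOf p hcard hker).finrank_eq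
  have hpk : (p : k) = 0 := by
    have h := map_natCast ι p
    rw [ZMod.natCast_self, _root_.map_zero] at h
    exact h.symm
  refine ⟨?_, ?_⟩
  · rw [hpk]
    exact zero_mem _
  · intro n σ a ha
    rcases Nat.eq_zero_or_pos n with rfl | hn
    · rw [pow_zero, Nat.cast_one, Ideal.span_singleton_one]
      exact Submodule.mem_top
    · have h1 : LinearMap.det (rho577 W p σ) = (a : ZMod p) := by
        refine det_rho577 W p hΔ hirr σ a (fun μ hμ => ha μ ?_)
        obtain ⟨m, rfl⟩ : ∃ m, n = m + 1 := ⟨n - 1, by omega⟩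
        rw [pow_succ', pow_mul, hμ, one_pow]
      have h2 : LinearMap.det ((rho577 W p σ).baseChange k) =
          algebraMap (ZMod p) k (LinearMap.det (rho577 W p σ)) :=
        LinearMap.det_baseChange (rho577 W p σ)
      have h3 : LinearMap.det ((GaloisRepAdic.ofResidualGaloisRep
          (curveResidual p W hcard hker ι)).ρ σ) = (a : k) := by
        refine h2.trans ?_
        rw [h1, map_natCast]
      rw [h3, sub_self]
      exact zero_mem _

/-- the characteristic polynomials of `E[p] ⊗ k` come from `𝔽_p` -/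
theorem curve_charpoly (σ : GQ577) :
    LinearMap.charpoly ((curveResidual p W hcard hker ι).ρ σ) =
      (LinearMap.charpoly
        (((W.map (Int.castRingHom ℚ)).residualGaloisRepOf p hcard hker).ρ σ)).map ι := by
  letI : Algebra (ZMod p) k := ι.toAlgebra
  exact LinearMap.charpoly_baseChange
    (((W.map (Int.castRingHom ℚ)).residualGaloisRepOf p hcard hker).ρ σ) k

theorem curve_split
    (hι : ∀ f : (ZMod p)[X], f.Monic → f.natDegree = 2 →
      ∃ α β : k, f.map ι = (X - C α) * (X - C β))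
    (σ : GQ577) :
    ∃ α β : k, LinearMap.charpoly ((curveResidual p W hcard hker ι).ρ σ) =
      (X - C α) * (X - C β) := by
  obtain ⟨α, β, h⟩ := hι (LinearMap.charpoly
      (((W.map (Int.castRingHom ℚ)).residualGaloisRepOf p hcard hker).ρ σ))
    (LinearMap.charpoly_monic _)
    (by rw [LinearMap.charpoly_natDegree,
      ((W.map (Int.castRingHom ℚ)).residualGaloisRepOf p hcard hker).finrank_eq])
  exact ⟨α, β, (curve_charpoly p W hcard hker ι σ).trans h⟩

/-- inertia at `q ≠ p` acts unipotently on `E[p] ⊗ k` -/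
theorem curve_unip (hΔ : W.Δ ≠ 0) (hss : W.IsSemistableModel) {q : ℕ} (hq : q.Prime)
    (hqp : q ≠ p) :
    (GaloisRepAdic.ofResidualGaloisRep
      (curveResidual p W hcard hker ι)).IsUnipotentOnInertiaAt q := by
  intro P hP σ hσ
  have h1 := sub_one_sq_rho577 W p hΔ hss hq hqp P hP σ hσ
  have h2 : LinearMap.charpoly
      (((W.map (Int.castRingHom ℚ)).residualGaloisRepOf p hcard hker).ρ σ) = (X - 1) ^ 2 := by
    apply charpoly_eq_of_sub_one_sq
      ((W.map (Int.castRingHom ℚ)).residualGaloisRepOf p hcard hker).finrank_eq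
    have h3 : (rho577 W p σ - 1) * (rho577 W p σ - 1) =
        rho577 W p σ * rho577 W p σ - (2 : ZMod p) • rho577 W p σ + 1 := by
      rw [sub_mul, mul_sub, mul_one, one_mul, two_smul]
      abel
    rw [h3] at h1
    exact h1
  refine (curve_charpoly p W hcard hker ι σ).trans ?_
  rw [h2]
  simp

end Fields

/-- **GTW, ramified case.** -/
theorem curveResidualHyp_of_ram : CurveResidualHypRamStatement := by
  intro p _ hp2 W hΔ hW hirr hcard hker 𝒪 _ _ _ _ _ _ hp𝒪 ι hι Smin hSmin hram
  obtain ⟨hpS, hSP, hmin⟩ := hSmin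
  obtain ⟨q, hqS, hqp⟩ := hram
  have hq : q.Prime := hSP q hqS
  have hnr := (hmin q hq hqp).mp hqS
  -- a non-trivial unipotent element
  obtain ⟨σ₀, h1, h2⟩ : ∃ σ₀ : GQ577, (rho577 W p σ₀ - 1) * (rho577 W p σ₀ - 1) = 0 ∧
      rho577 W p σ₀ ≠ 1 := by
    by_contra hcon
    push Not at hcon
    apply hnr
    intro A hA σ hσ
    have h3 := hcon σ (sub_one_sq_rho577 W p hΔ hW hq hqp A hA σ hσ)
    have h4 := curveResidual_rho577 p W hcard hker ι σ
    rw [h3, LinearMap.baseChange_one] at h4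
    exact h4
  refine
    { hp2 := hp2
      hp𝒪 := hp𝒪
      habs := ?_
      hdet := curve_detIsCyclotomic p W hcard hker ι hΔ hirr
      hsplit := curve_split p W hcard hker ι hι
      hTW := ?_
      hpSmin := hpS
      hSmin := hSP
      hmin := hmin
      hunip := fun q' _ hq' hq'p => curve_unip p W hcard hker ι hΔ hW hq' hq'p }
  · intro V hV
    haveI : (⊤ : Subgroup GQ577).Normal := Subgroup.normal_top
    exact curve_stable_eq_bot_or_top p W hcard hker ι hp2 hirr σ₀ h1 h2
      (AlgebraicClosure (ResidueField 𝒪)) ⊤ (Subgroup.mem_top _) V (fun σ _ x hx => hV σ x hx)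
  · intro K _ _ G hG V hV
    haveI : G.Normal := Subgroup.normal_of_index_eq_two hG
    exact curve_stable_eq_bot_or_top p W hcard hker ι hp2 hirr σ₀ h1 h2 K G
      (Subgroup.mul_self_mem_of_index_two hG σ₀) V hV

end Fermat.Agent.S59.H577
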