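import Fermat.Agent.S59.H577.GTWLin
import Fermat.Agent.S59.Arch.SpecRT
import Fermat.Agent.S59.H240.UnipInput
import Fermat.Agent.S59.H667.CRInputs

/-!
# S59 / cell GTW (helper577): the standing hypotheses of S56 for `E[p] ⊗ k`

`curveResidualHyp_of_ram` : for a semistable integral model `W` with `E[p]` irreducible, `p` odd,
and `E[p]` RAMIFIED AT SOME PRIME `q ≠ p` (`∃ q ∈ Smin, q ≠ p`), the residual representation
`Arch.curveResidual p W hcard hker ι` satisfies `Arch.ResidualHyp`.

The hypothesis "ramified at some `q ≠ p`" gives a non-trivial unipotent element in the image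
(inertia at `q` acts unipotently by semistability), and then irreducibility over `𝔽_p` implies
absolute irreducibility on every normal subgroup containing its square (`GTWLin.lean`).
In the remaining case `Smin = {p}` the minimal level is `1` or `p`, which contradicts residual
modularity for `p ∈ {3, 5}` (`TameOut.lean`).
-/

set_option autoImplicit false
set_option linter.style.haveILetI false

open Polynomial IsLocalRing
open scoped WeierstrassCurve.Affine TensorProduct

namespace Fermat.Agent.S59.H577

open Fermat.Agent.S59.Arch Fermat.Agent.S59.H127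
open WeierstrassCurve WeierstrassCurve.Affine WeierstrassCurve.Affine.Point

/-- `ℚ̄` -/
abbrev Qbar577 : Type := AlgebraicClosure ℚ

/-- `G_ℚ` -/
abbrev GQ577 : Type := Qbar577 ≃ₐ[ℚ] Qbar577

section Level

variable (W : WeierstrassCurve ℤ)

/-- the Galois representation on `E[m]` -/
noncomputable abbrev rho577 (m : ℕ) :
    GQ577 →* Module.End (ZMod m) (Submodule.torsionBy ℤ (Pts W) m) :=
  galoisRepModuleEnd (K := AlgebraicClosure ℚ) ℚ (WQ W) m

theorem det_rho577_cast {m m' : ℕ} (h : m = m') (σ : GQ577) (a : ℕ)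
    (hd : LinearMap.det (rho577 W m σ) = (a : ZMod m)) :
    LinearMap.det (rho577 W m' σ) = (a : ZMod m') := by
  subst h
  exact hd

variable (p : ℕ) [hp : Fact p.Prime]

/-- the determinant of `E[p]` is the mod `p` cyclotomic character -/
theorem det_rho577 (hΔ : W.Δ ≠ 0) (hirr : W.ModRepIsIrreducible p) (σ : GQ577) (a : ℕ)
    (ha : ∀ μ : Qbar577, μ ^ p = 1 → σ μ = μ ^ a) :
    LinearMap.det (rho577 W p σ) = (a : ZMod p) := by
  have h1 := Fermat.Agent.S59.H667.detInput_of_irreducible p W hΔ hirr 1 σ a
    (fun μ hμ => ha μ (by rwa [pow_one] at hμ))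
  exact det_rho577_cast W (pow_one p) σ a h1

/-- inertia at `q ≠ p` acts unipotently on `E[p]` (semistable model) -/
theorem sub_one_sq_rho577 (hΔ : W.Δ ≠ 0) (hss : W.IsSemistableModel) {q : ℕ} (hq : q.Prime)
    (hqp : q ≠ p) (A : ValuationSubring Qbar577) (hA : A.LiesOverPrime q) (σ : GQ577)
    (hσ : σ ∈ A.inertiaSubgroupIn ℚ) :
    (rho577 W p σ - 1) * (rho577 W p σ - 1) = 0 := by
  have hc : ∀ y : Submodule.torsionBy ℤ (Pts W) p,
      ((rho577 W p σ y : Submodule.torsionBy ℤ (Pts W) p) : Pts W) = σ • (y : Pts W) :=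
    fun y => rfl
  have hx : ∀ x : Submodule.torsionBy ℤ (Pts W) p, p ^ 1 • (x : Pts W) = 0 := by
    intro x
    have := x.2
    rw [Submodule.mem_torsionBy_iff] at this
    rw [pow_one, ← natCast_zsmul]
    exact this
  by_cases hgood : W.IsGoodPrimeFor q
  · have h2 : rho577 W p σ - 1 = 0 := by
      ext x
      have h1 := Fermat.Agent.S59.H667.unramInput p hp.out W q hq hgood hqp A hA σ hσ 1
        (x : Pts W) (hx x)
      rw [LinearMap.sub_apply, Module.End.one_apply, LinearMap.zero_apply,
        Submodule.coe_sub, hc, h1, sub_self, Submodule.coe_zero]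
    rw [h2, mul_zero]
  · ext x
    have h1 := Fermat.Agent.S59.H240.unipInput_of_semistable p hp.out W hΔ hss q hq hgood hqp A hA
      σ hσ 1 (x : Pts W) (hx x)
    have h2 : (((rho577 W p σ - 1) * (rho577 W p σ - 1)) x : Pts W)
        = σ • σ • (x : Pts W) - (2 : ℤ) • σ • (x : Pts W) + (1 : ℤ) • (x : Pts W) := by
      simp only [Module.End.mul_apply, LinearMap.sub_apply, Module.End.one_apply, _root_.map_sub,
        Submodule.coe_sub, hc]
      rw [one_zsmul, two_zsmul]
      abel
    rw [h2, h1]
    rfl

end Level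

end Fermat.Agent.S59.H577
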