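import Mathlib

/-!
# S59 / cell GTW (helper577): the linear algebra behind "irreducible on index-2 subgroups"

`V₀` a `2`-dimensional representation of a group `G` over a field `k₀`, irreducible over `k₀`,
and `u ∈ G` acting as a NON-TRIVIAL UNIPOTENT element (`(ρ₀ u - 1)² = 0`, `ρ₀ u ≠ 1`).  Then for
every NORMAL subgroup `H ∋ u` and every tower of fields `k₀ → k → K`, the only `H`-stable
`K`-subspaces of `K ⊗ (k ⊗ V₀)` are `⊥` and `⊤`.

Reason: an `H`-stable line is the fixed line of every conjugate `g u g⁻¹`, these lines are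
defined over `k₀`, so the fixed line of `u` in `V₀` is `G`-stable.
-/

set_option autoImplicit false

open scoped TensorProduct

namespace Fermat.Agent.S59.H577

section Nilp

variable {F : Type*} [Field F] {V : Type*} [AddCommGroup V] [Module F V]

/-- In a `2`-dimensional space, a proper non-zero subspace stable under a non-zero
endomorphism `N` with `N² = 0` is the kernel of `N`. -/
theorem eq_ker_of_stable_of_sq_zero (h2 : Module.finrank F V = 2) (N : Module.End F V)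
    (hN2 : N * N = 0) (hN : N ≠ 0) (W : Submodule F V) (hW : ∀ x ∈ W, N x ∈ W)
    (h0 : W ≠ ⊥) (h1 : W ≠ ⊤) : W = LinearMap.ker N := by
  have : Module.Finite F V := Module.finite_of_finrank_eq_succ h2
  -- `W ≤ ker N`
  have hle : W ≤ LinearMap.ker N := by
    intro w hw
    rw [LinearMap.mem_ker]
    by_contra hNw
    -- `w` and `N w` are linearly independent elements of `W`, so `W = ⊤`
    have hw0 : w ≠ 0 := by
      rintro rfl
      exact hNw (map_zero N)
    have hNNw : N (N w) = 0 := by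
      have := LinearMap.congr_fun hN2 w
      simpa using this
    have hli : LinearIndependent F ![N w, w] := by
      rw [LinearIndependent.pair_iff]
      intro a b hab
      have h3 := congrArg N hab
      rw [map_add, map_smul, map_smul, hNNw, smul_zero, zero_add, map_zero] at h3
      have hb : b = 0 := by
        rcases smul_eq_zero.mp h3 with h | h
        · exact h
        · exact absurd h hNw
      rw [hb, zero_smul, add_zero] at hab
      rcases smul_eq_zero.mp hab with h | h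
      · exact ⟨h, hb⟩
      · exact absurd h hNw
    have hmem : ∀ i, ![N w, w] i ∈ W := by
      intro i
      fin_cases i
      · exact hW w hw
      · exact hw
    -- a linearly independent family of `2` vectors in `W`
    have hcard : 2 ≤ Module.finrank F W := by
      have hli' : LinearIndependent F (fun i : Fin 2 => (⟨![N w, w] i, hmem i⟩ : W)) := by
        apply LinearIndependent.of_comp W.subtype
        exact hli
      have := hli'.fintype_card_le_finrank
      simpa using this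
    apply h1
    apply Submodule.eq_top_of_finrank_eq
    have := Submodule.finrank_le W
    omega
  -- dimensions
  have hker : LinearMap.ker N ≠ ⊤ := by
    intro h
    apply hN
    ext x
    have : x ∈ LinearMap.ker N := h ▸ Submodule.mem_top
    simpa using this
  have hk1 : Module.finrank F (LinearMap.ker N) < 2 := by
    rw [← h2]
    exact Submodule.finrank_lt hker
  have hW1 : 0 < Module.finrank F W := by
    rw [Module.finrank_pos_iff]
    exact Submodule.nontrivial_iff_ne_bot.mpr h0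
  exact Submodule.eq_of_le_of_finrank_le hle (by omega)

end Nilp

section Tower

variable {k₀ k K : Type*} [Field k₀] [Field k] [Field K] [Algebra k₀ k] [Algebra k K]
variable {V₀ : Type*} [AddCommGroup V₀] [Module k₀ V₀]

/-- The double base change of an endomorphism. -/
noncomputable def bc2 (k K : Type*) [Field k] [Field K] [Algebra k₀ k] [Algebra k K]
    (f : Module.End k₀ V₀) : Module.End K (K ⊗[k] (k ⊗[k₀] V₀)) :=
  (f.baseChange k).baseChange K

theorem bc2_tmul (f : Module.End k₀ V₀) (v : V₀) :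
    bc2 k K f ((1 : K) ⊗ₜ[k] ((1 : k) ⊗ₜ[k₀] v)) = (1 : K) ⊗ₜ[k] ((1 : k) ⊗ₜ[k₀] f v) := by
  rw [bc2, LinearMap.baseChange_tmul, LinearMap.baseChange_tmul]

theorem bc2_one : bc2 k K (1 : Module.End k₀ V₀) = 1 := by
  rw [bc2, LinearMap.baseChange_one, LinearMap.baseChange_one]

theorem bc2_mul (f g : Module.End k₀ V₀) : bc2 k K (f * g) = bc2 k K f * bc2 k K g := by
  rw [bc2, bc2, bc2, LinearMap.baseChange_mul, LinearMap.baseChange_mul]

theorem bc2_sub (f g : Module.End k₀ V₀) : bc2 k K (f - g) = bc2 k K f - bc2 k K g := by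
  rw [bc2, bc2, bc2, LinearMap.baseChange_sub, LinearMap.baseChange_sub]

theorem bc2_zero : bc2 k K (0 : Module.End k₀ V₀) = 0 := by
  rw [bc2, LinearMap.baseChange_zero, LinearMap.baseChange_zero]

/-- `v ↦ 1 ⊗ (1 ⊗ v)` is injective. -/
theorem tmul2_injective :
    Function.Injective (fun v : V₀ => (1 : K) ⊗ₜ[k] ((1 : k) ⊗ₜ[k₀] v)) := by
  intro v w h
  have h1 : (1 : k) ⊗ₜ[k₀] v = (1 : k) ⊗ₜ[k₀] w :=
    Module.Flat.tensorProduct_mk_injective k (k ⊗[k₀] V₀) K h
  exact Module.Flat.tensorProduct_mk_injective k₀ V₀ k h1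

theorem finrank_tower2 (h2 : Module.finrank k₀ V₀ = 2) :
    Module.finrank K (K ⊗[k] (k ⊗[k₀] V₀)) = 2 := by
  rw [Module.finrank_baseChange, Module.finrank_baseChange, h2]

/-- **Core.**  `ρ₀` irreducible over `k₀` on the `2`-dimensional `V₀`, `H` a normal subgroup
containing an element `u` acting as a non-trivial unipotent.  Then every `H`-stable subspace of
`K ⊗ (k ⊗ V₀)` is `⊥` or `⊤`. -/
theorem stable_eq_bot_or_top_of_unipotent (h2 : Module.finrank k₀ V₀ = 2)
    {G : Type*} [Group G] (ρ₀ : G →* Module.End k₀ V₀)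
    (hirr : ∀ W₀ : Submodule k₀ V₀, (∀ g : G, ∀ x ∈ W₀, ρ₀ g x ∈ W₀) → W₀ = ⊥ ∨ W₀ = ⊤)
    (H : Subgroup G) [hHn : H.Normal] (u : G) (huH : u ∈ H)
    (hu2 : (ρ₀ u - 1) * (ρ₀ u - 1) = 0) (hu : ρ₀ u ≠ 1)
    (W : Submodule K (K ⊗[k] (k ⊗[k₀] V₀)))
    (hW : ∀ h ∈ H, ∀ x ∈ W, bc2 k K (ρ₀ h) x ∈ W) : W = ⊥ ∨ W = ⊤ := by
  by_contra hcon
  rw [not_or] at hcon
  obtain ⟨hW0, hW1⟩ := hcon
  -- the nilpotent parts of the conjugates of `u`
  set N₀ : Module.End k₀ V₀ := ρ₀ u - 1 with hN₀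
  have hN₀ne : N₀ ≠ 0 := fun h => hu (sub_eq_zero.mp h)
  have hconj : ∀ g : G, ρ₀ (g * u * g⁻¹) - 1 = ρ₀ g * N₀ * ρ₀ g⁻¹ := by
    intro g
    have h1 : ρ₀ g * ρ₀ g⁻¹ = 1 := by rw [← map_mul, mul_inv_cancel, map_one]
    rw [map_mul, map_mul, hN₀, mul_sub, sub_mul, mul_one, h1]
  have hinv : ∀ g : G, ρ₀ g⁻¹ * ρ₀ g = 1 := fun g => by
    rw [← map_mul, inv_mul_cancel, map_one]
  have hinv' : ∀ g : G, ρ₀ g * ρ₀ g⁻¹ = 1 := fun g => by
    rw [← map_mul, mul_inv_cancel, map_one]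
  -- `W` is the kernel of the double base change of each of them
  have hkey : ∀ g : G, W = LinearMap.ker (bc2 k K (ρ₀ g * N₀ * ρ₀ g⁻¹)) := by
    intro g
    have hmem : g * u * g⁻¹ ∈ H := hHn.conj_mem u huH g
    apply eq_ker_of_stable_of_sq_zero (finrank_tower2 h2) _ _ _ W _ hW0 hW1
    · rw [← bc2_mul]
      have : ρ₀ g * N₀ * ρ₀ g⁻¹ * (ρ₀ g * N₀ * ρ₀ g⁻¹) = 0 := by
        calc ρ₀ g * N₀ * ρ₀ g⁻¹ * (ρ₀ g * N₀ * ρ₀ g⁻¹)
            = ρ₀ g * N₀ * (ρ₀ g⁻¹ * ρ₀ g) * N₀ * ρ₀ g⁻¹ := by simp only [mul_assoc]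
          _ = ρ₀ g * (N₀ * N₀) * ρ₀ g⁻¹ := by rw [hinv, mul_one]; simp only [mul_assoc]
          _ = 0 := by rw [hu2, mul_zero, zero_mul]
      rw [this, bc2_zero]
    · intro h0
      -- `ρ₀ g * N₀ * ρ₀ g⁻¹ = 0`
      have h3 : ρ₀ g * N₀ * ρ₀ g⁻¹ = 0 := by
        ext v
        have h4 := LinearMap.congr_fun h0 ((1 : K) ⊗ₜ[k] ((1 : k) ⊗ₜ[k₀] v))
        rw [bc2_tmul, LinearMap.zero_apply] at h4
        have h5 : (fun v : V₀ => (1 : K) ⊗ₜ[k] ((1 : k) ⊗ₜ[k₀] v)) ((ρ₀ g * N₀ * ρ₀ g⁻¹) v)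
            = (fun v : V₀ => (1 : K) ⊗ₜ[k] ((1 : k) ⊗ₜ[k₀] v)) 0 := by
          simp only [h4, TensorProduct.tmul_zero]
        simpa using tmul2_injective (k := k) (K := K) h5
      apply hN₀ne
      calc N₀ = ρ₀ g⁻¹ * (ρ₀ g * N₀ * ρ₀ g⁻¹) * ρ₀ g := by
            rw [← mul_assoc, ← mul_assoc, hinv, one_mul, mul_assoc, hinv, mul_one]
        _ = 0 := by rw [h3, mul_zero, zero_mul]
    · intro x hx
      have h3 := hW _ hmem x hx
      rw [← hconj g, bc2_sub, bc2_one, LinearMap.sub_apply, Module.End.one_apply]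
      exact W.sub_mem h3 hx
  -- the kernel of `N₀` is `G`-stable
  have hstab : ∀ g : G, ∀ x ∈ LinearMap.ker N₀, ρ₀ g x ∈ LinearMap.ker N₀ := by
    intro g x hx
    rw [LinearMap.mem_ker] at hx ⊢
    -- `1 ⊗ 1 ⊗ x ∈ W`
    have h1 : (1 : K) ⊗ₜ[k] ((1 : k) ⊗ₜ[k₀] x) ∈ W := by
      have h := hkey 1
      rw [map_one, inv_one, map_one, one_mul, mul_one] at h
      rw [h, LinearMap.mem_ker, bc2_tmul, hx, TensorProduct.tmul_zero, TensorProduct.tmul_zero]
    have h2' := hkey g⁻¹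
    rw [h2', LinearMap.mem_ker, bc2_tmul, inv_inv] at h1
    have h5 : (fun v : V₀ => (1 : K) ⊗ₜ[k] ((1 : k) ⊗ₜ[k₀] v)) ((ρ₀ g⁻¹ * N₀ * ρ₀ g) x)
        = (fun v : V₀ => (1 : K) ⊗ₜ[k] ((1 : k) ⊗ₜ[k₀] v)) 0 := by
      simp only [h1, TensorProduct.tmul_zero]
    have h6 : (ρ₀ g⁻¹ * N₀ * ρ₀ g) x = 0 := tmul2_injective (k := k) (K := K) h5
    have h7 : ρ₀ g ((ρ₀ g⁻¹ * N₀ * ρ₀ g) x) = N₀ (ρ₀ g x) := by
      have : ρ₀ g * (ρ₀ g⁻¹ * N₀ * ρ₀ g) = N₀ * ρ₀ g := by
        rw [← mul_assoc, ← mul_assoc, hinv', one_mul]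
      exact LinearMap.congr_fun this x
    rw [← h7, h6, map_zero]
  rcases hirr _ hstab with h | h
  · -- `ker N₀ = ⊥` is impossible: `N₀ (N₀ v) = 0`
    apply hN₀ne
    ext v
    have h3 : N₀ v ∈ LinearMap.ker N₀ := by
      rw [LinearMap.mem_ker]
      exact LinearMap.congr_fun hu2 v
    rw [h, Submodule.mem_bot] at h3
    simpa using h3
  · apply hN₀ne
    ext v
    have : v ∈ LinearMap.ker N₀ := h ▸ Submodule.mem_top
    simpa using this

end Tower

end Fermat.Agent.S59.H577
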