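import Fermat.Agent.S59.Arch.SpecRT
import Fermat.Agent.S08
import Fermat.Agent.S20
import Fermat.Agent.Lib.Newform.H683.FinDim

/-!
# S59 / cell GTW (helper577): `E[p]` is ramified at some prime `q ≠ p`

`tameOut : TameOutStatement` : for `p ∈ {3, 5}`, if `W` is residually modular of the Wiles level
`wilesLevel p t Smin Smin` then `Smin` contains a prime `q ≠ p`.  Otherwise the level is `1` or
`p ∈ {3, 5}`, and `S₂(Γ₀(1)) = S₂(Γ₀(3)) = S₂(Γ₀(5)) = 0` (S08 and S20) leaves no room for a
normalised eigenform.
-/

set_option autoImplicit false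
set_option linter.style.haveILetI false

open CongruenceSubgroup ModularFormClass

namespace Fermat.Agent.S59.H577

open Fermat.Agent.S59.Arch ModularCurve

/-- **TAME-OUT.**  Residual modularity of the minimal level forces a ramified prime `q ≠ p`. -/
def TameOutStatement : Prop :=
  ∀ (p : ℕ) [Fact p.Prime] (_hp : p = 3 ∨ p = 5) (W : WeierstrassCurve ℤ)
    (Smin : Finset ℕ) (t : PType),
    W.IsResiduallyModularOfLevel p (wilesLevel p t Smin Smin) → ∃ q ∈ Smin, q ≠ p

theorem nuTwo_three577 : nuTwo 3 = 0 := by
  unfold nuTwo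
  rw [Nat.card_eq_fintype_card]
  decide

theorem nuThree_three577 : nuThree 3 = 1 := by
  unfold nuThree
  rw [Nat.card_eq_fintype_card]
  decide

theorem nuTwo_five577 : nuTwo 5 = 2 := by
  unfold nuTwo
  rw [Nat.card_eq_fintype_card]
  decide

theorem nuThree_five577 : nuThree 5 = 0 := by
  unfold nuThree
  rw [Nat.card_eq_fintype_card]
  decide

theorem dedekindPsi_prime577 {p : ℕ} (hp : p.Prime) : dedekindPsi p = p + 1 := by
  unfold dedekindPsi
  rw [hp.divisors, Finset.filter_true_of_mem, Finset.sum_pair hp.one_lt.ne]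
  · rw [Nat.div_one, Nat.div_self hp.pos]
  · intro d hd
    rcases Finset.mem_insert.mp hd with rfl | hd
    · exact squarefree_one
    · rw [Finset.mem_singleton] at hd
      subst hd
      exact hp.squarefree

theorem cuspCount_prime577 {p : ℕ} (hp : p.Prime) : cuspCount p = 2 := by
  unfold cuspCount
  rw [hp.divisors, Finset.sum_pair hp.one_lt.ne]
  rw [Nat.div_one, Nat.div_self hp.pos, Nat.gcd_one_left, Nat.gcd_one_right, Nat.totient_one]

theorem genusFormula_three577 : genusFormula 3 = 0 := by
  unfold genusFormula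
  rw [nuTwo_three577, nuThree_three577, dedekindPsi_prime577 Nat.prime_three,
    cuspCount_prime577 Nat.prime_three]
  norm_num

theorem genusFormula_five577 : genusFormula 5 = 0 := by
  unfold genusFormula
  rw [nuTwo_five577, nuThree_five577, dedekindPsi_prime577 Nat.prime_five,
    cuspCount_prime577 Nat.prime_five]
  norm_num

/-- `S₂(Γ₀(N)) = 0` when the genus formula vanishes (S20 + finite-dimensionality). -/
theorem cuspForm_eq_zero_of_genusFormula577 (N : ℕ) [NeZero N] (h : genusFormula N = 0)
    (f : CuspForm (Gamma0 N) 2) : f = 0 := by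
  haveI : FiniteDimensional ℂ (CuspForm (Gamma0 N) 2) :=
    Fermat.Agent.Lib.Newform.H683.finiteDimensional_cuspForm N 2
  have h1 := Fermat.Agent.S20.result N
  rw [h] at h1
  have h2 : Module.finrank ℂ (CuspForm (Gamma0 N) 2) = 0 := by exact_mod_cast h1
  haveI : Subsingleton (CuspForm (Gamma0 N) 2) := Module.finrank_zero_iff.mp h2
  exact Subsingleton.elim _ _

/-- no normalised eigenform in a zero space -/
theorem not_isResiduallyModularOfLevel577 (W : WeierstrassCurve ℤ) (p M : ℕ)
    (h0 : ∀ f : CuspForm (Gamma0 M) 2, f = 0) : ¬ W.IsResiduallyModularOfLevel p M := by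
  rintro ⟨f, 𝔪, hf, -⟩
  have h1 := hf.qCoeff_one
  have h2 : qCoeff (⇑f) 1 = 0 := by
    rw [h0 f]
    exact _root_.map_zero (Fermat.Agent.Lib.Newform.H683.coeffLin M 2 1)
  rw [h2] at h1
  exact zero_ne_one h1

/-- **TAME-OUT.** -/
theorem tameOut : TameOutStatement := by
  intro p _ hp W Smin t hmod
  by_contra hcon
  push Not at hcon
  have h1 : Smin.erase p = ∅ := by
    ext q
    simp only [Finset.mem_erase, Finset.notMem_empty, iff_false, not_and]
    intro hq hqS
    exact hq (hcon q hqS)
  have hlev : wilesLevel p t Smin Smin = 1 ∨ wilesLevel p t Smin Smin = p := by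
    unfold wilesLevel
    rw [h1, Finset.sdiff_self, Finset.prod_empty, Finset.prod_empty, one_mul, one_mul]
    cases t
    · exact Or.inl rfl
    · exact Or.inr rfl
    · exact Or.inr rfl
  rcases hlev with h | h
  · rw [h] at hmod
    exact not_isResiduallyModularOfLevel577 W p 1 Fermat.Agent.S08.result hmod
  · rw [h] at hmod
    rcases hp with rfl | rfl
    · exact not_isResiduallyModularOfLevel577 W 3 3
        (cuspForm_eq_zero_of_genusFormula577 3 genusFormula_three577) hmod
    · exact not_isResiduallyModularOfLevel577 W 5 5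
        (cuspForm_eq_zero_of_genusFormula577 5 genusFormula_five577) hmod

end Fermat.Agent.S59.H577
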