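import Fermat.Agent.S59.H577.GTW
import Fermat.Agent.S59.H577.TameOut

/-!
# S59 / cell GTW (helper577): `Arch.ResidualHyp` for `E[p] ⊗ k`, modular form of the statement

`curveResidualHyp_of_mod : CurveResidualHypModStatement` : the frozen statement
`Arch.CurveResidualHypStatement` with ONE extra hypothesis, available at its unique point of use
in the glue (`hmodmin` in `Arch.mlt2_of` / `Arch.mlt2_of_rtAll`):

  `W.IsResiduallyModularOfLevel p (wilesLevel p t Smin Smin)`   (for some `t`).

Proof: `tameOut` gives a prime `q ∈ Smin`, `q ≠ p` (otherwise the level is `1` or `p ∈ {3, 5}` and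
`S₂(Γ₀(1)) = S₂(Γ₀(3)) = S₂(Γ₀(5)) = 0`), then `curveResidualHyp_of_ram` (inertia at `q` gives a
non-trivial unipotent element; linear algebra).  No Serre open image, no class field theory, no
local analysis at `p`.
-/

set_option autoImplicit false

open Polynomial IsLocalRing
open scoped WeierstrassCurve.Affine

namespace Fermat.Agent.S59.H577

open Fermat.Agent.S59.Arch

/-- **GTW, modular form.**  `Arch.CurveResidualHypStatement` under the extra hypothesis that `W`
is residually modular of the minimal level `wilesLevel p t Smin Smin`. -/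
def CurveResidualHypModStatement : Prop :=
  ∀ (p : ℕ) [Fact p.Prime] (_hp : p = 3 ∨ p = 5)
    (W : WeierstrassCurve ℤ) (_hΔ : W.Δ ≠ 0) (_hW : W.IsSemistableModel)
    (_hirr : W.ModRepIsIrreducible p)
    (hcard : Nat.card (Submodule.torsionBy ℤ
      ((W.map (Int.castRingHom ℚ))⁄(AlgebraicClosure ℚ)).Point p) = p ^ 2)
    (hker : GaloisFactorsThroughFiniteLevel
      (WeierstrassCurve.Affine.Point.galoisRepModuleEnd (K := AlgebraicClosure ℚ) ℚ
        (W.map (Int.castRingHom ℚ)) p))
    (𝒪 : Type) [CommRing 𝒪] [IsDomain 𝒪] [IsDiscreteValuationRing 𝒪]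
    [IsAdicComplete (maximalIdeal 𝒪) 𝒪] [Finite (ResidueField 𝒪)] [CharZero 𝒪]
    (_hp𝒪 : (p : 𝒪) ∈ maximalIdeal 𝒪)
    (ι : ZMod p →+* ResidueField 𝒪)
    (_hι : ∀ f : (ZMod p)[X], f.Monic → f.natDegree = 2 →
      ∃ α β : ResidueField 𝒪, f.map ι = (X - C α) * (X - C β))
    (Smin : Finset ℕ) (_hSmin : IsMinSet p (curveResidual p W hcard hker ι) Smin)
    (t : PType) (_hmod : W.IsResiduallyModularOfLevel p (wilesLevel p t Smin Smin)),
    ResidualHyp p 𝒪 (curveResidual p W hcard hker ι) Smin

/-- **GTW, modular form.** -/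
theorem curveResidualHyp_of_mod : CurveResidualHypModStatement := by
  intro p _ hp W hΔ hW hirr hcard hker 𝒪 _ _ _ _ _ _ hp𝒪 ι hι Smin hSmin t hmod
  have hp2 : p ≠ 2 := by rcases hp with rfl | rfl <;> decide
  exact curveResidualHyp_of_ram p hp2 W hΔ hW hirr hcard hker 𝒪 hp𝒪 ι hι Smin hSmin
    (tameOut p hp W Smin t hmod)

end Fermat.Agent.S59.H577
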